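import Fermat.Agent.S48.H.Key

/-!
# S48 / H-1c : `h ∣ γ₃ = p h(p² ·)` forces `h = 0`
[key S48/H-1c, ~350 lines]

`h` a weight one (any weight `k`) cusp form on `Γ₁(N)`, `p ∤ N`, `γ₃ ∈ Γ₀(N)`, `c ≠ 0` a constant, `t = p²`, and `(h ∣ γ₃)(z) = c h(t z)` for all `z`.  Then `h = 0`.

**Proof.**  Write `D F = F ∣ γ₃` for `Γ₁(N)`-invariant `F`; by `slash_eq_of_d_eq` `D F = F ∣ δ` for every `δ ∈ Γ₀(N)` with `d_δ ≡ d_{γ₃} (N)`.
(1) If `F` and `F ∘ scaleH t` are both `Γ₁(N)`-invariant then `D (F ∘ scaleH t) = (D F) ∘ scaleH t`: choose `δ = [[a,b],[c',d]] ∈ Γ₀(N t)`, `d ≡ d_{γ₃} (N)`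
    (`exists_mem_Gamma0`); `t δ z = δ' (t z)` with `δ' = [[a, t b],[c'/t, d]] ∈ Γ₀(N)` (`N ∣ c'/t`), same `d`, same automorphy factor `c' z + d = (c'/t)(t z) + d`.
(2) By induction `D^i h = c^i h ∘ scaleH (t^i)` (all these functions are cusp forms on `Γ₁(N)` by `isCF_slash`).
(3) `γ₃^e ∈ Γ₁(N)` for `e = orderOf` of `d_{γ₃}` in `(ZMod N)ˣ` (or `e = N.totient`), so `D^e h = h`:  `h = c^e h ∘ scaleH (t^e)`, `T := t^e > 1`.
(4) coefficients (`S24.qExpansion_scale_coeff`): `b_n = c^e [T ∣ n] b_{n/T}`.  Strong induction on `n`: `b_0 = 0` (cusp form: `IsZeroAtImInfty`, or: `b_0 = c^e b_0`… use the cusp condition), `b_n = 0` if `T ∤ n`, and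
    `b_n = c^e b_{n/T} = 0` otherwise (`n/T < n`).  `IsQ.eq_zero_of_qExpansion`.
-/

set_option autoImplicit false

open UpperHalfPlane ModularForm ModularFormClass CongruenceSubgroup Fermat.Agent.S24 Fermat.Agent.S29
open scoped MatrixGroups Manifold

noncomputable section

namespace Fermat.Agent.S48

theorem h1c_slash_apply (k : ℤ) (f : ℍ → ℂ) (γ : SL(2, ℤ)) (z : ℍ) :
    (f ∣[k] γ) z = f (γ • z) * (((γ 1 0 : ℤ) : ℂ) * z + ((γ 1 1 : ℤ) : ℂ)) ^ (-k) := by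
  rw [SL_slash_apply]
  congr 2

theorem h1c_smul_mul (γ : SL(2, ℤ)) (z : ℍ) :
    ((γ • z : ℍ) : ℂ) * (((γ 1 0 : ℤ) : ℂ) * z + ((γ 1 1 : ℤ) : ℂ)) =
      ((γ 0 0 : ℤ) : ℂ) * z + ((γ 0 1 : ℤ) : ℂ) := by
  have hne := denom_ne_zero (Matrix.SpecialLinearGroup.toGL ((Matrix.SpecialLinearGroup.map
      (Int.castRingHom ℝ)) γ)) z
  have hd : denom (Matrix.SpecialLinearGroup.toGL ((Matrix.SpecialLinearGroup.map
      (Int.castRingHom ℝ)) γ)) (z : ℂ) = ((γ 1 0 : ℤ) : ℂ) * z + ((γ 1 1 : ℤ) : ℂ) := by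
    simp [denom]
  rw [hd] at hne
  rw [coe_specialLinearGroup_apply]
  simp only [algebraMap_int_eq, eq_intCast, Complex.ofReal_intCast]
  rw [div_mul_cancel₀ _ hne]

/-- commutation of the diamond operator with `scaleH t` -/
theorem h1c_comm {N : ℕ} [NeZero N] {k : ℤ} {F : ℍ → ℂ} (t : ℕ) [NeZero t]
    (hF : ∀ γ ∈ Gamma1 N, F ∣[k] γ = F)
    (hF' : ∀ γ ∈ Gamma1 N, (F ∘ scaleH t) ∣[k] γ = F ∘ scaleH t)
    (γ₃ : SL(2, ℤ)) (hγ₃ : γ₃ ∈ Gamma0 N) :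
    (F ∘ scaleH t) ∣[k] γ₃ = (F ∣[k] γ₃) ∘ scaleH t := by
  have hcop : IsCoprime (γ₃ 1 1) (N : ℤ) := by
    obtain ⟨c, hc⟩ := (ZMod.intCast_zmod_eq_zero_iff_dvd _ N).mp (Gamma0_mem.mp hγ₃)
    have hdet := Matrix.det_fin_two γ₃.1
    rw [γ₃.2] at hdet
    exact ⟨γ₃ 0 0, -(γ₃ 0 1) * c, by linear_combination (γ₃ 0 1) * hc - hdet⟩
  obtain ⟨δ, hδ, hd⟩ := exists_mem_Gamma0 (N := N) t (NeZero.ne t) (γ₃ 1 1) hcop
  obtain ⟨c'', hc''⟩ := (ZMod.intCast_zmod_eq_zero_iff_dvd _ (N * t)).mp (Gamma0_mem.mp hδ)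
  have hδN : δ ∈ Gamma0 N := h0_Gamma0_le (Dvd.intro t rfl) hδ
  have hdet : δ 0 0 * δ 1 1 - (t * δ 0 1) * (N * c'') = 1 := by
    have h := Matrix.det_fin_two δ.1
    rw [δ.2] at h
    push_cast at hc''
    linear_combination (δ 0 1) * hc'' - h
  have hδ' : h1b_mk (δ 0 0) (t * δ 0 1) (N * c'') (δ 1 1) hdet ∈ Gamma0 N := by
    rw [Gamma0_mem]
    simp [h1b_mk]
  rw [slash_eq_of_d_eq hF' γ₃ δ hγ₃ hδN hd.symm,
    slash_eq_of_d_eq hF γ₃ (h1b_mk (δ 0 0) (t * δ 0 1) (N * c'') (δ 1 1) hdet) hγ₃ hδ' hd.symm]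
  funext z
  have hcC : ((δ 1 0 : ℤ) : ℂ) = (N : ℂ) * t * c'' := by rw [hc'']; push_cast; ring
  have h1 := h1c_smul_mul δ z
  rw [Function.comp_apply, h1c_slash_apply,
    h1b_slash k F _ _ _ _ hdet (scaleH t z) (scaleH t (δ • z)) ?_]
  · rw [Function.comp_apply, coe_scaleH, hcC]
    congr 2
    push_cast
    ring
  · rw [coe_scaleH, coe_scaleH]
    rw [hcC] at h1
    push_cast
    linear_combination (t : ℂ) * h1

theorem h1c_pow_mem {N : ℕ} [NeZero N] (γ₃ : SL(2, ℤ)) (hγ₃ : γ₃ ∈ Gamma0 N) :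
    γ₃ ^ N.totient ∈ Gamma1 N := by
  refine h0_mem_Gamma1 ((⟨γ₃, hγ₃⟩ : Gamma0 N) ^ N.totient) ?_
  rw [← MonoidHom.coe_toHomUnits, map_pow, ZMod.pow_totient, Units.val_one]

theorem h1c_coeff_zero {f : ℍ → ℂ} (hf : IsQ f) (h0 : IsZeroAtImInfty f) :
    (qExpansion 1 f).coeff 0 = 0 := by
  rw [qExpansion_coeff_zero one_pos hf.analytic (by simpa using hf.per), h0.valueAtInfty_eq_zero]

theorem eq_zero_of_slash_eq_scale {N : ℕ} [NeZero N] {k : ℤ} {h : ℍ → ℂ}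
    (hh : S20.IsCF (Gamma1 N) k h) (t : ℕ) [NeZero t] (ht : 1 < t) (htN : t.Coprime N)
    (γ₃ : SL(2, ℤ)) (hγ₃ : γ₃ ∈ Gamma0 N) (c : ℂ)
    (hrel : ∀ z : ℍ, (h ∣[k] γ₃) z = c * h (scaleH t z)) : h = 0 := by
  by_cases hc : c = 0
  · have h1 : h ∣[k] γ₃ = 0 := by
      funext z
      rw [hrel z, hc, zero_mul]; rfl
    have h2 : (h ∣[k] γ₃) ∣[k] γ₃⁻¹ = h := by
      rw [← SlashAction.slash_mul, mul_inv_cancel, SlashAction.slash_one]
    rw [← h2, h1, SlashAction.zero_slash]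
  -- the sequence `H i = h ∘ (scaleH t)^i`
  let H : ℕ → ℍ → ℂ := fun i => Nat.rec h (fun _ F => F ∘ scaleH t) i
  have hH0 : H 0 = h := rfl
  have hHs : ∀ i, H (i + 1) = H i ∘ scaleH t := fun _ => rfl
  have hA : ∀ i, S20.IsCF (Gamma1 N) k (H i) ∧ H i ∣[k] γ₃ = c • H (i + 1) := by
    intro i
    induction i with
    | zero => exact ⟨hh, funext fun z => hrel z⟩
    | succ i ih =>
      have h1 : H (i + 1) = c⁻¹ • (H i ∣[k] γ₃) := by rw [ih.2, smul_smul, inv_mul_cancel₀ hc, one_smul]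
      have h2 : S20.IsCF (Gamma1 N) k (H (i + 1)) := by
        rw [h1]; exact (isCF_slash ih.1 γ₃ hγ₃).smul _
      refine ⟨h2, ?_⟩
      rw [hHs i, h1c_comm t ih.1.inv (by rw [← hHs i]; exact h2.inv) γ₃ hγ₃, ih.2, hHs (i + 1)]
      rfl
  have hB : ∀ i, h ∣[k] (γ₃ ^ i) = c ^ i • H i := by
    intro i
    induction i with
    | zero => rw [pow_zero, pow_zero, SlashAction.slash_one, one_smul, hH0]
    | succ i ih =>
      rw [pow_succ, SlashAction.slash_mul, ih, SL_smul_slash, (hA i).2, smul_smul, pow_succ]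
  have he : 0 < N.totient := Nat.totient_pos.mpr (Nat.pos_of_ne_zero (NeZero.ne N))
  obtain ⟨e, he'⟩ : ∃ e, N.totient = e + 1 := ⟨N.totient - 1, by omega⟩
  have hC : h = c ^ (e + 1) • H (e + 1) := by
    rw [← hB, ← he', hh.inv _ (h1c_pow_mem γ₃ hγ₃)]
  have hQ : ∀ i, IsQ (H i) := fun i => isQ_of_isCF (hA i).1
  have hZ : ∀ n i, (qExpansion 1 (H i)).coeff n = 0 := by
    intro n
    induction n using Nat.strong_induction_on with
    | _ n ih =>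
      rcases Nat.eq_zero_or_pos n with rfl | hn
      · intro i
        have h0 := (hA i).1.zero 1
        rw [SlashAction.slash_one] at h0
        exact h1c_coeff_zero (hQ i) h0
      · have hs : ∀ i, (qExpansion 1 (H (i + 1))).coeff n = 0 := by
          intro i
          rw [hHs i, qExpansion_scale_coeff (hQ i)]
          split_ifs with hd
          · exact ih (n / t) (Nat.div_lt_self hn ht) i
          · rfl
        intro i
        cases i with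
        | zero =>
          rw [hH0, hC, qExpansion_smul (hQ (e + 1)).analytic]
          simp [hs e]
        | succ i => exact hs i
  exact (hQ 0).eq_zero_of_qExpansion (PowerSeries.ext fun n => by rw [hZ n 0]; simp)

end Fermat.Agent.S48
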