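import Fermat.Agent.S48.H.Key
import Fermat.Agent.S48.H.Vanish

/-!
# S48 / H-2 : the nebentypus lemma
[key S48/H-2, ~350 lines, from the stubs `sum_divH_eq`, `key_identity`, `eq_zero_of_slash_eq_scale`, `slash_eq_of_d_eq`]

`f` a weight one cusp form on `Γ₁(N)`, `a = coeffFun f`, `HeckeRel N a (fun p => ε p)`.  (No normalisation needed here.)

`slash_prime` : for `p ∤ N` prime and `γ ∈ Γ₀(N)` with `d_γ ≡ p`: `f ∣ γ = ε(p) f`.
 `sum_divH_eq` (`e = ε p`, `λ = a p`) gives `(E)`; `key_identity` gives `γ₂, γ₃, j₀`.  `h := f∣γ₂ - e f` is a cusp form on `Γ₁(N)`; `h ∣ γ₃ = f ∣ (γ₂γ₃) - e f∣γ₃ = f - e f∣γ₃`.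
 So `p h(pz) = (h∣γ₃)((z+j₀)/p)` for all `z`; put `z = p w - j₀` (a point of `ℍ`; `divH p j₀ z = w`, `scaleH p z = p² w - p j₀`, `h` is `1`-periodic):
 `(h∣γ₃)(w) = p h(p² w)`.  `eq_zero_of_slash_eq_scale` with `t = p²`: `h = 0`.  `slash_eq_of_d_eq` passes from `γ₂` to `γ`.
`isNebC` : for `γ ∈ Γ₀(N)`, `d = γ 1 1` is prime to `N`; Dirichlet (`Nat.forall_exists_prime_gt_and_eq_mod` / `Nat.setOf_prime_and_eq_mod_infinite`) gives a prime `p ∤ N`, `p ≡ d (N)`.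
`eps_neg_one` : `γ = -1`: `f ∣[1] (-1) = -f` (`SL_slash_apply`, `denom = -1`), so `ε(-1) f = -f`, `f ≠ 0`.
-/

set_option autoImplicit false

open UpperHalfPlane ModularForm ModularFormClass CongruenceSubgroup Fermat.Agent.S24 Fermat.Agent.S29
open scoped MatrixGroups Manifold

noncomputable section

namespace Fermat.Agent.S48

variable {N : ℕ} [NeZero N] (ε : DirichletCharacter ℂ N) {f : ℍ → ℂ}

omit [NeZero N] in
/-- `1`-periodic functions are invariant under integer translations -/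
theorem h2_periodic {h : ℍ → ℂ} (hh : IsQ h) (z z' : ℍ) (n : ℤ) (hz : (z' : ℂ) = (z : ℂ) + n) :
    h z' = h z := by
  have h1 := (hh.per.int_mul n) (z : ℂ)
  rw [mul_one, ← hz, Function.comp_apply, Function.comp_apply, ofComplex_apply, ofComplex_apply] at h1
  exact h1

theorem slash_prime (hf : S20.IsCF (Gamma1 N) 1 f)
    (hT : HeckeRel N (coeffFun f) (fun p => ε (p : ZMod N))) (p : ℕ) (hp : p.Prime) (hpN : ¬ p ∣ N)
    (γ : SL(2, ℤ)) (hγ : γ ∈ Gamma0 N) (hd : ((γ 1 1 : ℤ) : ZMod N) = (p : ZMod N)) :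
    f ∣[(1 : ℤ)] γ = ε (p : ZMod N) • f := by
  have : NeZero p := ⟨hp.ne_zero⟩
  have : NeZero (p ^ 2) := ⟨pow_ne_zero 2 hp.ne_zero⟩
  have hpC : (p : ℂ) ≠ 0 := by exact_mod_cast hp.ne_zero
  set e : ℂ := ε (p : ZMod N) with he
  have hE := sum_divH_eq (isQ_of_isCF hf) p e (coeffFun f p) (hT p hp hpN)
  obtain ⟨γ₂, γ₃, j₀, h2, h3, hd2, h23, hid⟩ := key_identity hf p hp hpN e (coeffFun f p) hE
  have hh : S20.IsCF (Gamma1 N) 1 (f ∣[(1 : ℤ)] γ₂ + (-e) • f) :=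
    (isCF_slash hf γ₂ h2).add (hf.smul (-e))
  have hs : (f ∣[(1 : ℤ)] γ₂ + (-e) • f) ∣[(1 : ℤ)] γ₃ = f + (-e) • (f ∣[(1 : ℤ)] γ₃) := by
    rw [SlashAction.add_slash, ← SlashAction.slash_mul, hf.inv _ h23, SL_smul_slash]
  have h0 : f ∣[(1 : ℤ)] γ₂ + (-e) • f = 0 := by
    refine eq_zero_of_slash_eq_scale hh (p ^ 2) (Nat.one_lt_pow (by norm_num) hp.one_lt)
      (Nat.Coprime.pow_left 2 ((Nat.Prime.coprime_iff_not_dvd hp).mpr hpN)) γ₃ h3 (p : ℂ) ?_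
    intro w
    -- the point `z = p w - j₀`
    have him : 0 < ((p : ℂ) * w - j₀).im := by
      have : ((p : ℂ) * w - j₀).im = p * w.im := by simp
      rw [this]
      exact mul_pos (by exact_mod_cast hp.pos) w.im_pos
    let z : ℍ := ⟨(p : ℂ) * w - j₀, him⟩
    have hz : (z : ℂ) = (p : ℂ) * w - j₀ := rfl
    have e1 : divH p j₀ z = w := by
      apply UpperHalfPlane.ext
      rw [h1a_coe_divH, hz]
      field_simp
      ring
    have e2 : ∀ g : ℍ → ℂ, IsQ g → g (scaleH p z) = g (scaleH (p ^ 2) w) := by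
      intro g hg
      refine h2_periodic hg _ _ (-(p * j₀)) ?_
      rw [coe_scaleH, coe_scaleH, hz]
      push_cast
      ring
    have h4 := hid z
    rw [e1, e2 _ (isQ_of_isCF hf), e2 _ (isQ_of_isCF (isCF_slash hf γ₂ h2))] at h4
    rw [hs]
    simp only [Pi.add_apply, Pi.smul_apply, smul_eq_mul]
    linear_combination -h4
  have h5 : f ∣[(1 : ℤ)] γ₂ = e • f := by
    have := eq_neg_of_add_eq_zero_left h0
    rw [this, _root_.neg_smul, neg_neg]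
  rw [← h5]
  refine slash_eq_of_d_eq hf.inv γ γ₂ hγ h2 ?_
  rw [hd, hd2, Int.cast_natCast]

/-- **nebentypus lemma** -/
theorem isNebC_of_heckeRel (hf : S20.IsCF (Gamma1 N) 1 f)
    (hT : HeckeRel N (coeffFun f) (fun p => ε (p : ZMod N))) : IsNebC N 1 (etaOf ε) f := by
  refine ⟨isQ_of_isCF hf, fun γ hγ => ?_, hf.zero⟩
  obtain ⟨p, hpN, hp, hpd⟩ := Nat.forall_exists_prime_gt_and_eq_mod (h0_isUnit_d γ hγ) N
  have hpN' : ¬ p ∣ N := fun h =>
    absurd (Nat.le_of_dvd (Nat.pos_of_ne_zero (NeZero.ne N)) h) (not_le.mpr hpN)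
  rw [slash_prime ε hf hT p hp hpN' γ hγ hpd.symm, hpd]
  rfl

theorem eps_neg_one (hf : S20.IsCF (Gamma1 N) 1 f)
    (hT : HeckeRel N (coeffFun f) (fun p => ε (p : ZMod N))) (h0 : f ≠ 0) : ε (-1) = -1 := by
  obtain ⟨z, hz⟩ : ∃ z, f z ≠ 0 := by
    by_contra h
    push Not at h
    exact h0 (funext h)
  have hm : (-1 : SL(2, ℤ)) ∈ Gamma0 N := by
    rw [Gamma0_mem]; simp
  have h1 := congrFun ((isNebC_of_heckeRel ε hf hT).slash (-1) hm) z
  rw [h1c_slash_apply, ModularGroup.SL_neg_smul, one_smul] at h1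
  simp only [etaOf, Pi.smul_apply, smul_eq_mul] at h1
  have e1 : ((-1 : SL(2, ℤ)) 1 0 : ℤ) = 0 := by simp
  have e2 : ((-1 : SL(2, ℤ)) 1 1 : ℤ) = -1 := by simp
  rw [e1, e2, zpow_neg_one] at h1
  push_cast at h1
  rw [zero_mul, zero_add] at h1
  have h2 : ((-1 : ℂ))⁻¹ = -1 := by norm_num
  rw [h2] at h1
  exact mul_right_cancel₀ hz (by linear_combination -h1)

end Fermat.Agent.S48
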