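import Fermat.Agent.S48.Forms
import Fermat.Agent.S29.DChAux

/-!
# S48 / H-0 : basic facts on forms with nebentypus
[key S48/H-0, ~300 lines, all elementary; each lemma is a few lines]
-/

set_option autoImplicit false

open UpperHalfPlane ModularForm ModularFormClass CongruenceSubgroup Fermat.Agent.S24 Fermat.Agent.S29
open scoped MatrixGroups Manifold

noncomputable section

namespace Fermat.Agent.S48

variable {M M' N : ℕ} {k l : ℤ} {χ χ' : ℤ → ℂ} {f g : ℍ → ℂ}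

theorem coe_nebChar (ε : DirichletCharacter ℂ N) (γ : Gamma0 N) :
    ((nebChar N ε γ : ℂˣ) : ℂ) = etaOf ε ((γ : SL(2, ℤ)) 1 1) := by
  unfold nebChar etaOf
  rw [MonoidHom.comp_apply, MulChar.coe_toUnitHom, MonoidHom.coe_toHomUnits]
  rfl

theorem nebChar_pow [NeZero N] (ε : DirichletCharacter ℂ N) (γ : Gamma0 N) :
    nebChar N ε γ ^ N.totient = 1 := by
  unfold nebChar
  rw [MonoidHom.comp_apply, ← map_pow, ZMod.pow_totient, map_one]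

theorem isNebC_iff_isCh (ε : DirichletCharacter ℂ N) :
    IsNebC N k (etaOf ε) f ↔ IsCh N k (nebChar N ε) f := by
  constructor
  · intro h
    exact ⟨h.isQ, fun γ => by rw [coe_nebChar]; exact h.slash γ γ.2, h.zero⟩
  · intro h
    exact ⟨h.isQ, fun γ hγ => by rw [h.slash ⟨γ, hγ⟩, coe_nebChar], h.zero⟩

theorem IsNebC.isNeb (h : IsNebC M k χ f) : IsNeb M k χ f :=
  ⟨h.isQ, h.slash, fun g => (h.zero g).boundedAtFilter⟩

theorem h0_Gamma0_le (hM : M ∣ M') : Gamma0 M' ≤ Gamma0 M := by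
  intro γ hγ
  rw [Gamma0_mem, ZMod.intCast_zmod_eq_zero_iff_dvd] at hγ ⊢
  exact dvd_trans (by exact_mod_cast hM) hγ

/-- raising the level [`Gamma0 M' ≤ Gamma0 M`] -/
theorem IsNebC.mono (hM : M ∣ M') (h : IsNebC M k χ f) : IsNebC M' k χ f :=
  ⟨h.isQ, fun γ hγ => h.slash γ (h0_Gamma0_le hM hγ), h.zero⟩

theorem IsNeb.mono (hM : M ∣ M') (h : IsNeb M k χ f) : IsNeb M' k χ f :=
  ⟨h.isQ, fun γ hγ => h.slash γ (h0_Gamma0_le hM hγ), h.bdd⟩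

theorem IsNeb.add (hf : IsNeb M k χ f) (hg : IsNeb M k χ g) : IsNeb M k χ (f + g) :=
  ⟨hf.isQ.add hg.isQ,
    fun γ hγ => by rw [SlashAction.add_slash, hf.slash γ hγ, hg.slash γ hγ, smul_add],
    fun γ => by rw [SlashAction.add_slash]; exact (hf.bdd γ).add (hg.bdd γ)⟩

theorem IsNeb.smul (c : ℂ) (hf : IsNeb M k χ f) : IsNeb M k χ (c • f) :=
  ⟨hf.isQ.smul c, fun γ hγ => by rw [SL_smul_slash, hf.slash γ hγ, smul_comm],
    fun γ => by rw [SL_smul_slash]; exact (hf.bdd γ).smul c⟩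

theorem IsNebC.smul (c : ℂ) (hf : IsNebC M k χ f) : IsNebC M k χ (c • f) :=
  ⟨hf.isQ.smul c, fun γ hγ => by rw [SL_smul_slash, hf.slash γ hγ, smul_comm],
    fun γ => by rw [SL_smul_slash]; exact (hf.zero γ).smul c⟩

theorem IsNebC.mul (hf : IsNebC M k χ f) (hg : IsNeb M l χ' g) :
    IsNebC M (k + l) (fun d => χ d * χ' d) (f * g) :=
  ⟨hf.isQ.mul hg.isQ, fun γ hγ => by
      rw [mul_slash_SL2, hf.slash γ hγ, hg.slash γ hγ, smul_mul_smul_comm],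
    fun γ => by rw [mul_slash_SL2]; exact (hf.zero γ).mul_boundedAtFilter (hg.bdd γ)⟩

/-- trivial nebentypus [hypothesis only on the `d` which occur] -/
theorem IsNebC.isCF_Gamma0 (hf : IsNebC M k χ f)
    (h1 : ∀ γ : SL(2, ℤ), γ ∈ Gamma0 M → χ (γ 1 1) = 1) : S20.IsCF (Gamma0 M) k f :=
  ⟨hf.isQ.holo, fun γ hγ => by rw [hf.slash γ hγ, h1 γ hγ, one_smul], hf.zero⟩

theorem IsNebC.isCF_Gamma1 (hNM : N ∣ M) (ε : DirichletCharacter ℂ N) (hf : IsNebC M k (etaOf ε) f) :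
    S20.IsCF (Gamma1 M) k f := by
  refine ⟨hf.isQ.holo, fun γ hγ => ?_, hf.zero⟩
  rw [hf.slash γ (Gamma1_in_Gamma0 M hγ)]
  have h1 : ((γ 1 1 : ℤ) : ZMod M) = 1 := ((Gamma1_mem M γ).mp hγ).2.1
  have h2 : ((γ 1 1 : ℤ) : ZMod N) = 1 := by
    have h3 : (((γ 1 1 - 1 : ℤ) : ℤ) : ZMod M) = 0 := by push_cast; rw [h1, sub_self]
    rw [ZMod.intCast_zmod_eq_zero_iff_dvd] at h3
    have h4 : (((γ 1 1 - 1 : ℤ) : ℤ) : ZMod N) = 0 := by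
      rw [ZMod.intCast_zmod_eq_zero_iff_dvd]
      exact dvd_trans (by exact_mod_cast hNM) h3
    push_cast at h4
    exact sub_eq_zero.mp h4
  unfold etaOf
  rw [h2, map_one, one_smul]

theorem h0_isUnit_d (γ : SL(2, ℤ)) (hγ : γ ∈ Gamma0 N) : IsUnit ((γ 1 1 : ℤ) : ZMod N) := by
  have h := ((Gamma0Map N).toHomUnits ⟨γ, hγ⟩).isUnit
  rw [MonoidHom.coe_toHomUnits] at h
  exact h

/-- for `γ ∈ Γ₀(M)`, `N ∣ M`: `d_γ` is a unit mod `N`, so `ε(d) ε⁻¹(d) = 1` -/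
theorem etaOf_mul_inv (hNM : N ∣ M) (ε : DirichletCharacter ℂ N) (γ : SL(2, ℤ)) (hγ : γ ∈ Gamma0 M) :
    etaOf ε (γ 1 1) * etaOf ε⁻¹ (γ 1 1) = 1 := by
  unfold etaOf
  rw [← MulChar.mul_apply, mul_inv_cancel,
    MulChar.one_apply (h0_isUnit_d γ (h0_Gamma0_le hNM hγ))]

theorem h0_mem_Gamma1 (γ : Gamma0 N) (h : Gamma0Map N γ = 1) : (γ : SL(2, ℤ)) ∈ Gamma1 N := by
  have h1 : γ ∈ Gamma1' N := Gamma1_mem'.mpr h
  rw [Gamma1_mem]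
  exact (Gamma1_to_Gamma0_mem γ).mp h1

theorem h0_Gamma0Map_eq_one (γ : SL(2, ℤ)) (hγ : γ ∈ Gamma1 N) :
    Gamma0Map N ⟨γ, Gamma1_in_Gamma0 N hγ⟩ = 1 :=
  ((Gamma1_mem N γ).mp hγ).2.1

/-- a `Γ₁(N)`-invariant function: `f ∣ γ` depends only on `d_γ mod N` [`γ₁ γ₂⁻¹ ∈ Γ₁(N)`] -/
theorem slash_eq_of_d_eq (hf : ∀ γ ∈ Gamma1 N, f ∣[k] γ = f) (γ₁ γ₂ : SL(2, ℤ))
    (h₁ : γ₁ ∈ Gamma0 N) (h₂ : γ₂ ∈ Gamma0 N)
    (hd : ((γ₁ 1 1 : ℤ) : ZMod N) = ((γ₂ 1 1 : ℤ) : ZMod N)) : f ∣[k] γ₁ = f ∣[k] γ₂ := by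
  have hu : (Gamma0Map N).toHomUnits ⟨γ₁, h₁⟩ = (Gamma0Map N).toHomUnits ⟨γ₂, h₂⟩ :=
    Units.ext (by rw [MonoidHom.coe_toHomUnits, MonoidHom.coe_toHomUnits]; exact hd)
  have hm : γ₁ * γ₂⁻¹ ∈ Gamma1 N := by
    refine h0_mem_Gamma1 (⟨γ₁, h₁⟩ * ⟨γ₂, h₂⟩⁻¹ : Gamma0 N) ?_
    rw [← MonoidHom.coe_toHomUnits, map_mul, map_inv, hu, mul_inv_cancel, Units.val_one]
  have e : γ₁ = (γ₁ * γ₂⁻¹) * γ₂ := by group
  rw [e, SlashAction.slash_mul, hf _ hm]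

/-- `f ∣ γ` is again `Γ₁(N)`-invariant for `γ ∈ Γ₀(N)` [`Γ₁(N)` is normal in `Γ₀(N)`] -/
theorem isCF_slash (hf : S20.IsCF (Gamma1 N) k f) (γ : SL(2, ℤ)) (hγ : γ ∈ Gamma0 N) :
    S20.IsCF (Gamma1 N) k (f ∣[k] γ) := by
  refine ⟨by rw [SL_slash]; exact hf.holo.slash k _, fun δ hδ => ?_, fun g => ?_⟩
  · have hm : γ * δ * γ⁻¹ ∈ Gamma1 N := by
      refine h0_mem_Gamma1
        (⟨γ, hγ⟩ * ⟨δ, Gamma1_in_Gamma0 N hδ⟩ * ⟨γ, hγ⟩⁻¹ : Gamma0 N) ?_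
      rw [← MonoidHom.coe_toHomUnits, map_mul, map_mul, map_inv]
      have h1 : (Gamma0Map N).toHomUnits ⟨δ, Gamma1_in_Gamma0 N hδ⟩ = 1 :=
        Units.ext (by rw [MonoidHom.coe_toHomUnits]; exact h0_Gamma0Map_eq_one δ hδ)
      rw [h1, mul_one, mul_inv_cancel, Units.val_one]
    have e : γ * δ = (γ * δ * γ⁻¹) * γ := by group
    rw [← SlashAction.slash_mul, e, SlashAction.slash_mul, hf.inv _ hm]
  · rw [← SlashAction.slash_mul]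
    exact hf.zero _

/-- a function level cusp form on `Γ₁(N)` is `IsQ` [`T ∈ Γ₁(N)`] -/
theorem isQ_of_isCF (hf : S20.IsCF (Gamma1 N) k f) : IsQ f := by
  have hT : ModularGroup.T ∈ Gamma1 N := by
    rw [Gamma1_mem]
    simp [ModularGroup.T]
  refine ⟨hf.holo, S29.DChAux.periodic_of_slash_T (hf.inv _ hT), ?_⟩
  have h := (hf.zero 1).boundedAtFilter
  rwa [SlashAction.slash_one] at h

/-- elements of `Γ₀(N t)` with prescribed `d mod N` [`d₀` prime to `N`; by CRT choose `d ≡ d₀ (N)`, `d ≡ 1 (t')` for the part `t'` of `t` prime to `N`,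
so that `gcd(d, N t) = 1`; Bézout `a d - b N t = 1`] -/
theorem exists_mem_Gamma0 [NeZero N] (t : ℕ) (ht : t ≠ 0) (d₀ : ℤ) (hd₀ : IsCoprime d₀ (N : ℤ)) :
    ∃ γ : SL(2, ℤ), γ ∈ Gamma0 (N * t) ∧ ((γ 1 1 : ℤ) : ZMod N) = (d₀ : ZMod N) := by
  have : NeZero (N * t) := ⟨mul_ne_zero (NeZero.ne N) ht⟩
  have hu : IsUnit ((d₀ : ℤ) : ZMod N) := by
    obtain ⟨a, b, hab⟩ := hd₀
    refine IsUnit.of_mul_eq_one ((a : ℤ) : ZMod N) ?_
    have := congrArg (Int.cast : ℤ → ZMod N) hab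
    push_cast at this
    rw [ZMod.natCast_self, mul_zero, add_zero] at this
    rw [mul_comm]; exact this
  obtain ⟨u, hu'⟩ := ZMod.unitsMap_surjective (Dvd.intro t rfl : N ∣ N * t) hu.unit
  have hcop := ZMod.val_coe_unit_coprime u
  have hcop' : IsCoprime (((u : ZMod (N * t)).val : ℕ) : ℤ) ((N * t : ℕ) : ℤ) :=
    Nat.isCoprime_iff_coprime.mpr hcop
  obtain ⟨a, b, hab⟩ := hcop'
  refine ⟨⟨!![a, -b; ((N * t : ℕ) : ℤ), (((u : ZMod (N * t)).val : ℕ) : ℤ)], ?_⟩, ?_, ?_⟩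
  · rw [Matrix.det_fin_two_of]
    linear_combination hab
  · rw [Gamma0_mem]
    show ((((N * t : ℕ) : ℤ) : ℤ) : ZMod (N * t)) = 0
    rw [Int.cast_natCast, ZMod.natCast_self]
  · have h1 : ((ZMod.unitsMap (Dvd.intro t rfl : N ∣ N * t) u : (ZMod N)ˣ) : ZMod N) =
        ((d₀ : ℤ) : ZMod N) := by rw [hu']; rfl
    rw [← h1, ZMod.unitsMap_def, Units.coe_map]
    show ((((u : ZMod (N * t)).val : ℕ) : ℤ) : ZMod N) =
      ZMod.castHom (Dvd.intro t rfl : N ∣ N * t) (ZMod N) (u : ZMod (N * t))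
    rw [ZMod.castHom_apply, Int.cast_natCast, ZMod.natCast_val]

end Fermat.Agent.S48
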