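import Fermat.Agent.S48.H.SumDiv

/-!
# S48 / H-1b : slashing the Hecke relation with `γ₀ = [[1,0],[N,1]]`
[key S48/H-1b, ~450 lines; explicit `2 × 2` matrices]

`f` a weight one cusp form on `Γ₁(N)` satisfying `(E)  ∑_{j<p} f((z+j)/p) = p (λ f(z) - e f(pz))` for all `z`; `p` prime, `p ∤ N`.
Let `j₁, j₀ ∈ [0,p)` with `1 + j₁ N ≡ 0`, `j₀ N ≡ 1 (mod p)`, and
`γ₂ = [[(1+j₁N)/p, j₁],[N, p]]`, `γ₃ = [[p, -j₀],[N, (1-j₀N)/p]]` (both in `Γ₀(N)`, determinant `1`, `d(γ₂) = p`, `p d(γ₃) ≡ 1 (N)`).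
CLAIM: `p (f∣γ₂ - e f)(p z) = (f - e f∣γ₃)((z+j₀)/p)` for all `z`.

**Proof.**  Apply `(E)` at the point `γ₀ z = z/(Nz+1)` and divide by `Nz+1`.  (weight one: `(F∣γ)(w) = (c w + d)⁻¹ F(γ w)`, `SL_slash_apply`.)
* `j ≠ j₁`: let `j' ∈ [0,p)` with `j'(1+jN) ≡ j (p)`.  `(γ₀z + j)/p = γ'_j ((z+j')/p)` with `γ'_j = [[1+jN, (j - j'(1+jN))/p],[pN, 1-j'N]] ∈ Γ₁(N)`, and
  `c w + d = pN (z+j')/p + 1 - j'N = Nz+1`.  So `(Nz+1)⁻¹ f((γ₀z+j)/p) = f((z+j')/p)`.   `j ↦ j'` is a bijection `[0,p) \ {j₁} → [0,p) \ {j₀}`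
  (inverse `j = j'/(1-j'N)`).
* `j = j₁`: `(γ₀z+j₁)/p = γ₂ (pz)`, `c w + d = N p z + p`: `(Nz+1)⁻¹ f(…) = p (f∣γ₂)(pz)`.
* `(Nz+1)⁻¹ f(γ₀ z) = f(z)` (`γ₀ ∈ Γ₁(N)`).
* `p γ₀ z = γ₃ ((z+j₀)/p)`, `c w + d = (Nz+1)/p`: `(Nz+1)⁻¹ f(p γ₀ z) = p⁻¹ (f∣γ₃)((z+j₀)/p)`.
Result: `∑_{j' ≠ j₀} f((z+j')/p) + p (f∣γ₂)(pz) = p λ f(z) - e (f∣γ₃)((z+j₀)/p)`.  Subtract `(E)` at `z`.
-/

set_option autoImplicit false

open UpperHalfPlane ModularForm ModularFormClass CongruenceSubgroup Fermat.Agent.S24 Fermat.Agent.S29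
open scoped MatrixGroups Manifold

noncomputable section

namespace Fermat.Agent.S48

/-- an element of `SL(2,ℤ)` from its entries -/
def h1b_mk (a b c d : ℤ) (h : a * d - b * c = 1) : SL(2, ℤ) :=
  ⟨!![a, b; c, d], by rw [Matrix.det_fin_two_of]; exact h⟩

theorem h1b_slash (k : ℤ) (f : ℍ → ℂ) (a b c d : ℤ) (h : a * d - b * c = 1) (w w' : ℍ)
    (hw : (w' : ℂ) * ((c : ℂ) * w + d) = (a : ℂ) * w + b) :
    (f ∣[k] h1b_mk a b c d h) w = f w' * ((c : ℂ) * w + d) ^ (-k) := by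
  rw [SL_slash_apply]
  have hd : denom (Matrix.SpecialLinearGroup.toGL ((Matrix.SpecialLinearGroup.map
      (Int.castRingHom ℝ)) (h1b_mk a b c d h))) (w : ℂ) = (c : ℂ) * w + d := by
    simp [denom, h1b_mk]
  have hne := denom_ne_zero (Matrix.SpecialLinearGroup.toGL ((Matrix.SpecialLinearGroup.map
      (Int.castRingHom ℝ)) (h1b_mk a b c d h))) w
  rw [hd] at hne ⊢
  have e : h1b_mk a b c d h • w = w' := by
    apply UpperHalfPlane.ext
    rw [coe_specialLinearGroup_apply]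
    simp only [h1b_mk]
    rw [div_eq_iff (by simpa using hne)]
    simpa using hw.symm
  rw [e]

theorem h1b_denom_ne_zero (c d : ℤ) (hcd : c ≠ 0 ∨ d ≠ 0) (w : ℍ) : (c : ℂ) * w + d ≠ 0 := by
  intro h
  have him := congrArg Complex.im h
  have hre := congrArg Complex.re h
  simp at him hre
  rcases him with h0 | h0
  · rw [h0] at hre
    simp at hre
    rcases hcd with h1 | h1
    · exact h1 h0
    · exact h1 hre
  · exact w.im_ne_zero h0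

theorem h1b_mul_coe_divH (p : ℕ) [NeZero p] (j : ℤ) (z : ℍ) :
    (p : ℂ) * ((divH p j z : ℍ) : ℂ) = (z : ℂ) + j := by
  have hp : (p : ℂ) ≠ 0 := by exact_mod_cast NeZero.ne p
  rw [h1a_coe_divH]
  field_simp

theorem h1b_sum_range (p : ℕ) [NeZero p] (g : ℕ → ℂ) :
    ∑ j ∈ Finset.range p, g j = ∑ x : ZMod p, g x.val := by
  refine Finset.sum_nbij' (fun j => (j : ZMod p)) (fun x => x.val) (fun _ _ => Finset.mem_univ _)
    (fun x _ => Finset.mem_range.mpr (ZMod.val_lt x)) (fun j hj => ?_) (fun x _ => ?_)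
    (fun j hj => ?_)
  · exact ZMod.val_cast_of_lt (Finset.mem_range.mp hj)
  · exact ZMod.natCast_zmod_val x
  · rw [ZMod.val_cast_of_lt (Finset.mem_range.mp hj)]

section Pt

variable {N : ℕ} [NeZero N] {f : ℍ → ℂ} (hf : S20.IsCF (Gamma1 N) 1 f) (p : ℕ) [NeZero p]
  (z u : ℍ) (hu : (u : ℂ) * ((N : ℂ) * z + 1) = z)

include hf hu

theorem h1b_a : f z = f u * ((N : ℂ) * z + 1)⁻¹ := by
  have hm : h1b_mk 1 0 N 1 (by ring) ∈ Gamma1 N := by
    rw [Gamma1_mem]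
    simp [h1b_mk]
  have h1 := congrFun (hf.inv _ hm) z
  rw [h1b_slash 1 f 1 0 N 1 (by ring) z u (by push_cast; linear_combination hu), zpow_neg_one] at h1
  rw [← h1]
  push_cast
  rfl

theorem h1b_b (j j' b : ℤ) (hb : (p : ℤ) * b = j - j' * (1 + j * N)) :
    f (divH p j' z) = f (divH p j u) * ((N : ℂ) * z + 1)⁻¹ := by
  have hdet : (1 + j * N) * (1 - j' * N) - b * (p * N) = 1 := by linear_combination (-(N : ℤ)) * hb
  have hm : h1b_mk (1 + j * N) b (p * N) (1 - j' * N) hdet ∈ Gamma1 N := by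
    rw [Gamma1_mem]
    simp [h1b_mk]
  have h1 := congrFun (hf.inv _ hm) (divH p j' z)
  have hU := h1b_mul_coe_divH p j u
  have hW := h1b_mul_coe_divH p j' z
  have hbC : (p : ℂ) * b = j - j' * (1 + j * N) := by exact_mod_cast hb
  have hp : (p : ℂ) ≠ 0 := by exact_mod_cast NeZero.ne p
  rw [h1b_slash 1 f _ _ _ _ hdet (divH p j' z) (divH p j u) ?_, zpow_neg_one] at h1
  · rw [← h1]
    congr 2
    push_cast
    linear_combination (N : ℂ) * hW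
  · apply mul_left_cancel₀ hp
    push_cast
    linear_combination ((p : ℂ) * N * ((divH p j' z : ℍ) : ℂ) + 1 - j' * N) * hU +
      (((u : ℂ) + j) * N - (1 + j * N)) * hW + hu - hbC

theorem h1b_c (j₁ a₂ : ℤ) (ha : (p : ℤ) * a₂ = 1 + j₁ * N) (hdet : a₂ * p - j₁ * N = 1) :
    (f ∣[(1 : ℤ)] h1b_mk a₂ j₁ N p hdet) (scaleH p z) =
      f (divH p j₁ u) * ((p : ℂ) * ((N : ℂ) * z + 1))⁻¹ := by
  have hU := h1b_mul_coe_divH p j₁ u
  have haC : (p : ℂ) * a₂ = 1 + j₁ * N := by exact_mod_cast ha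
  rw [h1b_slash 1 f _ _ _ _ hdet (scaleH p z) (divH p j₁ u) ?_, zpow_neg_one]
  · congr 2
    rw [coe_scaleH]
    push_cast
    ring
  · rw [coe_scaleH]
    push_cast
    linear_combination ((N : ℂ) * z + 1) * hU + hu - (z : ℂ) * haC

theorem h1b_d (j₀ d₃ : ℤ) (hd : (p : ℤ) * d₃ = 1 - j₀ * N) (hdet : p * d₃ - (-j₀) * N = 1) :
    (f ∣[(1 : ℤ)] h1b_mk p (-j₀) N d₃ hdet) (divH p j₀ z) =
      f (scaleH p u) * (((N : ℂ) * z + 1) / p)⁻¹ := by
  have hW := h1b_mul_coe_divH p j₀ z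
  have hdC : (p : ℂ) * d₃ = 1 - j₀ * N := by exact_mod_cast hd
  have hp : (p : ℂ) ≠ 0 := by exact_mod_cast NeZero.ne p
  rw [h1b_slash 1 f _ _ _ _ hdet (divH p j₀ z) (scaleH p u) ?_, zpow_neg_one]
  · congr 2
    rw [eq_div_iff hp]
    push_cast
    linear_combination (N : ℂ) * hW + hdC
  · rw [coe_scaleH]
    push_cast
    linear_combination ((u : ℂ) * N - 1) * hW + (u : ℂ) * hdC + hu

end Pt

theorem key_identity {N : ℕ} [NeZero N] {f : ℍ → ℂ} (hf : S20.IsCF (Gamma1 N) 1 f)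
    (p : ℕ) [NeZero p] (hp : p.Prime) (hpN : ¬ p ∣ N) (e lam : ℂ)
    (hE : ∀ z : ℍ, ∑ j ∈ Finset.range p, f (divH p j z) = p * (lam * f z - e * f (scaleH p z))) :
    ∃ (γ₂ γ₃ : SL(2, ℤ)) (j₀ : ℤ), γ₂ ∈ Gamma0 N ∧ γ₃ ∈ Gamma0 N ∧ γ₂ 1 1 = p ∧ γ₂ * γ₃ ∈ Gamma1 N ∧
      ∀ z : ℍ, (p : ℂ) * ((f ∣[(1 : ℤ)] γ₂) (scaleH p z) - e * f (scaleH p z)) =
        f (divH p j₀ z) - e * (f ∣[(1 : ℤ)] γ₃) (divH p j₀ z) := by
  have := Fact.mk hp
  have hn : (N : ZMod p) ≠ 0 := by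
    rwa [Ne, ZMod.natCast_eq_zero_iff]
  set n : ZMod p := (N : ZMod p) with hndef
  obtain ⟨x₀, hx₀⟩ : ∃ x₀ : ZMod p, x₀ * n = 1 := ⟨n⁻¹, inv_mul_cancel₀ hn⟩
  obtain ⟨x₁, hx₁⟩ : ∃ x₁ : ZMod p, x₁ * n = -1 := ⟨-x₀, by linear_combination -hx₀⟩
  obtain ⟨a₂, ha₂⟩ : (p : ℤ) ∣ 1 + (x₁.val : ℤ) * N := by
    rw [← ZMod.intCast_zmod_eq_zero_iff_dvd]
    push_cast
    rw [ZMod.natCast_zmod_val, ← hndef]
    linear_combination hx₁
  obtain ⟨d₃, hd₃⟩ : (p : ℤ) ∣ 1 - (x₀.val : ℤ) * N := by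
    rw [← ZMod.intCast_zmod_eq_zero_iff_dvd]
    push_cast
    rw [ZMod.natCast_zmod_val, ← hndef]
    linear_combination -hx₀
  have hdet₂ : a₂ * p - (x₁.val : ℤ) * N = 1 := by linear_combination -ha₂
  have hdet₃ : p * d₃ - (-(x₀.val : ℤ)) * N = 1 := by linear_combination -hd₃
  refine ⟨h1b_mk a₂ x₁.val N p hdet₂, h1b_mk p (-(x₀.val : ℤ)) N d₃ hdet₃, x₀.val, ?_, ?_, rfl, ?_, ?_⟩
  · rw [Gamma0_mem]; simp [h1b_mk]
  · rw [Gamma0_mem]; simp [h1b_mk]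
  · rw [Gamma1_mem]
    simp only [h1b_mk, Matrix.SpecialLinearGroup.coe_mul, Matrix.mul_apply, Fin.sum_univ_two]
    simp only [Matrix.of_apply, Matrix.cons_val', Matrix.cons_val_zero, Matrix.cons_val_one,
      Matrix.cons_val_fin_one]
    refine ⟨?_, ?_, ?_⟩
    · have : a₂ * p + (x₁.val : ℤ) * N = 1 + 2 * (x₁.val : ℤ) * N := by linear_combination -ha₂
      rw [this]; simp
    · have : (N : ℤ) * -(x₀.val : ℤ) + p * d₃ = 1 - 2 * (x₀.val : ℤ) * N := by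
        linear_combination -hd₃
      rw [this]; simp
    · simp
  intro z
  -- the point `u = γ₀ z`
  set D : ℂ := (N : ℂ) * z + 1 with hD
  have hD0 : D ≠ 0 := by
    have := h1b_denom_ne_zero (N : ℤ) 1 (Or.inr one_ne_zero) z
    simpa using this
  obtain ⟨u, hu⟩ : ∃ u : ℍ, (u : ℂ) * ((N : ℂ) * z + 1) = z := by
    refine ⟨h1b_mk 1 0 N 1 (by ring) • z, ?_⟩
    have hcoe : ((h1b_mk 1 0 N 1 (by ring) • z : ℍ) : ℂ) = (z : ℂ) / ((N : ℂ) * z + 1) := by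
      rw [coe_specialLinearGroup_apply]
      simp [h1b_mk]
    rw [hcoe, div_mul_cancel₀ _ hD0]
  have hpC : (p : ℂ) ≠ 0 := by exact_mod_cast NeZero.ne p
  have hA := h1b_a hf z u hu
  have hC := h1b_c hf p z u hu x₁.val a₂ ha₂.symm hdet₂
  have hDd := h1b_d hf p z u hu x₀.val d₃ hd₃.symm hdet₃
  have hEu := hE u
  have hEz := hE z
  rw [h1b_sum_range p (fun j => f (divH p (j : ℤ) u)),
    ← Finset.add_sum_erase _ _ (Finset.mem_univ x₁)] at hEu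
  rw [h1b_sum_range p (fun j => f (divH p (j : ℤ) z)),
    ← Finset.add_sum_erase _ _ (Finset.mem_univ x₀)] at hEz
  have hB : ∑ x ∈ Finset.univ.erase x₁, f (divH p (x.val : ℤ) u) =
      D * ∑ y ∈ Finset.univ.erase x₀, f (divH p (y.val : ℤ) z) := by
    rw [Finset.mul_sum]
    have h1 : ∀ x : ZMod p, x ≠ x₁ → 1 + x * n ≠ 0 := by
      intro x hx h
      exact hx (mul_right_cancel₀ hn (by linear_combination h - hx₁))
    have h2 : ∀ y : ZMod p, y ≠ x₀ → 1 - y * n ≠ 0 := by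
      intro y hy h
      exact hy (mul_right_cancel₀ hn (by linear_combination -h - hx₀))
    refine Finset.sum_nbij' (fun x => x * (1 + x * n)⁻¹) (fun y => y * (1 - y * n)⁻¹) ?_ ?_ ?_ ?_ ?_
    · intro x hx
      have hx' := h1 x (Finset.ne_of_mem_erase hx)
      refine Finset.mem_erase.mpr ⟨fun h => ?_, Finset.mem_univ _⟩
      have h' : x = x₀ * (1 + x * n) := by rw [← h, mul_assoc, inv_mul_cancel₀ hx', mul_one]
      exact one_ne_zero (α := ZMod p) (by linear_combination (-n) * h' - (1 + x * n) * hx₀)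
    · intro y hy
      have hy' := h2 y (Finset.ne_of_mem_erase hy)
      refine Finset.mem_erase.mpr ⟨fun h => ?_, Finset.mem_univ _⟩
      have h' : y = x₁ * (1 - y * n) := by rw [← h, mul_assoc, inv_mul_cancel₀ hy', mul_one]
      exact one_ne_zero (α := ZMod p) (by linear_combination n * h' + (1 - y * n) * hx₁)
    · intro x hx
      have hx' := h1 x (Finset.ne_of_mem_erase hx)
      have h3 : 1 - x * (1 + x * n)⁻¹ * n = (1 + x * n)⁻¹ := by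
        field_simp
        ring
      rw [h3, inv_inv, mul_assoc, inv_mul_cancel₀ hx', mul_one]
    · intro y hy
      have hy' := h2 y (Finset.ne_of_mem_erase hy)
      have h3 : 1 + y * (1 - y * n)⁻¹ * n = (1 - y * n)⁻¹ := by
        field_simp
        ring
      rw [h3, inv_inv, mul_assoc, inv_mul_cancel₀ hy', mul_one]
    · intro x hx
      have hx' := h1 x (Finset.ne_of_mem_erase hx)
      obtain ⟨b, hb⟩ : (p : ℤ) ∣ (x.val : ℤ) - ((x * (1 + x * n)⁻¹).val : ℤ) * (1 + (x.val : ℤ) * N) := by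
        rw [← ZMod.intCast_zmod_eq_zero_iff_dvd]
        push_cast
        rw [ZMod.natCast_zmod_val, ZMod.natCast_zmod_val, ← hndef]
        field_simp
        ring
      have := h1b_b hf p z u hu x.val (x * (1 + x * n)⁻¹).val b hb.symm
      rw [this, ← hD]
      field_simp
  rw [hB] at hEu
  rw [← hD] at hA hC hDd
  have hA' : f u = D * f z := by rw [hA]; field_simp
  have hC' : f (divH p (x₁.val : ℤ) u) = p * D *
      (f ∣[(1 : ℤ)] h1b_mk a₂ x₁.val N p hdet₂) (scaleH p z) := by rw [hC]; field_simp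
  have hD' : f (scaleH p u) = D / p *
      (f ∣[(1 : ℤ)] h1b_mk p (-(x₀.val : ℤ)) N d₃ hdet₃) (divH p (x₀.val : ℤ) z) := by
    rw [hDd]; field_simp
  rw [hA', hC', hD'] at hEu
  apply mul_left_cancel₀ hD0
  have e1 : (p : ℂ) * (D / p) = D := by field_simp
  linear_combination hEu - D * hEz - e * (f ∣[(1 : ℤ)] h1b_mk p (-(x₀.val : ℤ)) N d₃ hdet₃) (divH p (x₀.val : ℤ) z) * e1

end Fermat.Agent.S48
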