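import Fermat.Agent.S48.H.Basic

/-!
# S48 / H-1a : the Hecke relation as an identity of functions
[key S48/H-1a, ~250 lines]

`f = ∑ a_n q^n` (`IsQ f`, `a = coeffFun f`), `p` prime (only `p ≠ 0` matters), `e, λ ∈ ℂ`, and for all `n`: `a (p n) + e [p ∣ n] a (n/p) = λ a n`.
Then `∑_{j<p} f((z+j)/p) = p (λ f(z) - e f(p z))`.

**Proof.**  `hasSum_qExpansion` at `(z+j)/p`: `f((z+j)/p) = ∑_n a_n ζ^{jn} w^n`, `w = exp(2πi z/p)`, `ζ = exp(2πi/p)`.  `∑_{j<p} ζ^{jn} = p [p ∣ n]`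
(`IsPrimitiveRoot.geom_sum_eq_zero` / `Complex.isPrimitiveRoot_exp`).  So the left side is `p ∑_m a_{pm} q^m` (`w^{pm} = q^m`; reindex as in `S24.hasSum_scale`).
Right side: `S24.hasSum_scale` for `f (scaleH p z)`.  Compare termwise (`HasSum.unique`).
-/

set_option autoImplicit false

open UpperHalfPlane ModularForm ModularFormClass CongruenceSubgroup Fermat.Agent.S24 Fermat.Agent.S29
open scoped MatrixGroups Manifold

noncomputable section

namespace Fermat.Agent.S48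

local notation "𝕢" => Function.Periodic.qParam

theorem h1a_coe_divH (p : ℕ) [NeZero p] (j : ℤ) (z : ℍ) :
    ((divH p j z : ℍ) : ℂ) = ((z : ℂ) + j) / p := rfl

theorem h1a_qParam_divH (p : ℕ) [NeZero p] (j : ℕ) (z : ℍ) :
    𝕢 (1 : ℝ) ((divH p (j : ℤ) z : ℍ) : ℂ) =
      Complex.exp (2 * Real.pi * Complex.I * (z : ℂ) / p) *
        Complex.exp (2 * Real.pi * Complex.I / p) ^ j := by
  rw [Function.Periodic.qParam, h1a_coe_divH, ← Complex.exp_nat_mul, ← Complex.exp_add]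
  congr 1
  push_cast
  ring

theorem h1a_exp_pow (p : ℕ) [NeZero p] (z : ℍ) :
    Complex.exp (2 * Real.pi * Complex.I * (z : ℂ) / p) ^ p = 𝕢 (1 : ℝ) (z : ℂ) := by
  have hp : (p : ℂ) ≠ 0 := by exact_mod_cast NeZero.ne p
  rw [Function.Periodic.qParam, ← Complex.exp_nat_mul]
  congr 1
  field_simp
  simp

theorem h1a_geom (p : ℕ) [NeZero p] (n : ℕ) :
    ∑ j ∈ Finset.range p, (Complex.exp (2 * Real.pi * Complex.I / p) ^ j) ^ n =
      if p ∣ n then (p : ℂ) else 0 := by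
  have hζ := Complex.isPrimitiveRoot_exp p (NeZero.ne p)
  generalize Complex.exp (2 * Real.pi * Complex.I / p) = ζ at hζ
  have e : ∀ j : ℕ, (ζ ^ j) ^ n = (ζ ^ n) ^ j := fun j => by
    rw [← pow_mul, ← pow_mul, mul_comm]
  simp only [e]
  split_ifs with h
  · rw [(hζ.pow_eq_one_iff_dvd n).mpr h]
    simp
  · have h1 : ζ ^ n ≠ 1 := fun h' => h ((hζ.pow_eq_one_iff_dvd n).mp h')
    rw [geom_sum_eq h1, ← pow_mul, mul_comm n p, pow_mul, hζ.pow_eq_one, one_pow, sub_self,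
      zero_div]

theorem sum_divH_eq {f : ℍ → ℂ} (hf : IsQ f) (p : ℕ) [NeZero p] (e lam : ℂ)
    (hrel : ∀ n : ℕ, coeffFun f (p * n) + e * (if p ∣ n then coeffFun f (n / p) else 0) =
      lam * coeffFun f n) (z : ℍ) :
    ∑ j ∈ Finset.range p, f (divH p j z) = p * (lam * f z - e * f (scaleH p z)) := by
  have hp : 0 < p := Nat.pos_of_ne_zero (NeZero.ne p)
  set w : ℂ := Complex.exp (2 * Real.pi * Complex.I * (z : ℂ) / p) with hw
  set ζ : ℂ := Complex.exp (2 * Real.pi * Complex.I / p) with hζ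
  -- the left hand side
  have h1 : HasSum (fun n : ℕ => ∑ j ∈ Finset.range p, coeffFun f n • (w * ζ ^ j) ^ n)
      (∑ j ∈ Finset.range p, f (divH p j z)) := by
    refine hasSum_sum fun j _ => ?_
    have h := hasSum_qExpansion one_pos hf.per hf.holo hf.bdd (divH p (j : ℤ) z)
    rw [h1a_qParam_divH] at h
    exact h
  have e1 : (fun n : ℕ => ∑ j ∈ Finset.range p, coeffFun f n • (w * ζ ^ j) ^ n) =
      fun n : ℕ => coeffFun f n * w ^ n * (if p ∣ n then (p : ℂ) else 0) := by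
    funext n
    rw [← h1a_geom p n, Finset.mul_sum]
    refine Finset.sum_congr rfl fun j _ => ?_
    rw [smul_eq_mul, mul_pow, mul_assoc]
  rw [e1] at h1
  have hinj : Function.Injective (fun n : ℕ => p * n) := fun a b h =>
    Nat.eq_of_mul_eq_mul_left hp h
  rw [← hinj.hasSum_iff] at h1
  swap
  · intro x hx
    have : ¬ p ∣ x := fun ⟨k, hk⟩ => hx ⟨k, hk.symm⟩
    simp only [this, if_false, mul_zero]
  -- the right hand side
  have h2 := hasSum_qExpansion one_pos hf.per hf.holo hf.bdd z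
  have h3 := hasSum_scale hf p z
  have h4 := ((h2.mul_left lam).sub (h3.mul_left e)).mul_left (p : ℂ)
  refine h1.unique ?_
  have e2 : ((fun n : ℕ => coeffFun f n * w ^ n * (if p ∣ n then (p : ℂ) else 0)) ∘
      fun n : ℕ => p * n) = fun i : ℕ => (p : ℂ) *
        (lam * (PowerSeries.coeff i) (qExpansion 1 f) • 𝕢 (1 : ℝ) (z : ℂ) ^ i -
          e * (if p ∣ i then (PowerSeries.coeff (i / p)) (qExpansion 1 f) else 0) •
            𝕢 (1 : ℝ) (z : ℂ) ^ i) := by
    funext n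
    have hr := hrel n
    unfold coeffFun at hr
    simp only [Function.comp_apply, dvd_mul_right, if_true, smul_eq_mul, coeffFun]
    rw [pow_mul, h1a_exp_pow]
    linear_combination (𝕢 (1 : ℝ) (z : ℂ) ^ n * (p : ℂ)) * hr
  rw [e2]
  exact h4

end Fermat.Agent.S48
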